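import Fermat.Agent.MR.Sp.RedOf
import Fermat.Agent.S24.PlaceOrd

/-!
# PROGRAM MR (S44), block `mrp` : (K2) the kernel of the specialisation

Owner: helper1.  Namespace `Fermat.Agent.MR`, prefix `mrp`.

* `mrp_kerFun : MrpKerFunSpec` : if the reductions of `f` are `n`-th powers up to constants on both
  components then `f Gⁿ` is a one-unit of `V₁` and of `V₂` for some `G`;
* `mrp_ker : MrpKerSpec` : the class form, landing in the landed `ttalKum (ttalOne V₁ V₂) n`.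
-/

set_option autoImplicit false
set_option linter.unusedSectionVars false
set_option linter.unusedVariables false

noncomputable section

namespace Fermat.Agent.MR

open AlgebraicCurve IsLocalRing Fermat.Agent.TT

section Pic

variable {K : Type*} [Field K] {F : Type*} [Field F] [Algebra K F]

/-- `[D] = 0` iff `D` is principal. -/
theorem mrp_mk_eq_zero_iff {D : Divisor.degZero (K := K) (F := F)} :
    Pic0.mk D = 0 ↔ ∃ f : F, f ≠ 0 ∧ ∀ v : Place K F, (D : Divisor K F) v = v.ord f := by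
  unfold Pic0.mk
  rw [QuotientAddGroup.eq_zero_iff, AddSubgroup.mem_addSubgroupOf]
  rfl

/-- `[D] = [D']` iff `D' - D` is principal. -/
theorem mrp_mk_eq_mk_iff {D D' : Divisor.degZero (K := K) (F := F)} :
    Pic0.mk D = Pic0.mk D' ↔
      ∃ h : F, h ≠ 0 ∧ ∀ v : Place K F, (D' : Divisor K F) v - (D : Divisor K F) v = v.ord h := by
  have e : Pic0.mk D = Pic0.mk D' ↔ Pic0.mk (D' - D) = 0 := by
    have : Pic0.mk (D' - D) = Pic0.mk D' - Pic0.mk D := rfl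
    rw [this, sub_eq_zero, eq_comm]
  rw [e, mrp_mk_eq_zero_iff]
  simp only [AddSubgroup.coe_sub, Finsupp.coe_sub, Pi.sub_apply]

/-- the order of a constant multiple. -/
theorem mrp_ord_const_mul (v : Place K F) {c : K} (hc : c ≠ 0) {f : F} (hf : f ≠ 0) :
    v.ord (algebraMap K F c * f) = v.ord f := by
  rw [Place.ord_mul v ((map_ne_zero_iff _ (algebraMap K F).injective).2 hc) hf,
    Fermat.Agent.S24.PlaceOrd.ord_algebraMap, zero_add]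

/-- the order of a power. -/
theorem mrp_ord_pow (v : Place K F) (f : F) (n : ℕ) : v.ord (f ^ n) = (n : ℤ) * v.ord f := by
  rw [← zpow_natCast, Place.ord_zpow]

end Pic

section One

variable {K : Type*} [Field K] {A : ValuationSubring K} {F : Type*} [Field F] [Algebra K F]
variable {F' : Type*} [Field F'] [Algebra (ResidueField A) F']
variable {V : ValuationSubring F} {red : V →+* F'}

/-- the reduction of a unit is non-zero. -/
theorem mrp_red_ne_zero (H : MrpOne A V red) {u : F} (hu0 : u ≠ 0) (hu : TtalIsU V u) :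
    red ⟨u, hu.1⟩ ≠ 0 :=
  fun h0 => mrp_isU_not_nonunits hu0 hu ((H.ker _).1 h0)

/-- if a reduction of `f` is `a γⁿ` and `u = f G₀ⁿ` is a unit of `V`, then `red u` is an `n`-th
power. -/
theorem mrp_red_pow (H : MrpOne A V red) {n : ℕ} (hn : n ≠ 0)
    (hk : ∀ a : ResidueField A, ∃ b : ResidueField A, b ^ n = a) {f G₀ : F} {g γ : F'}
    {a : ResidueField A} (hG₀ : G₀ ≠ 0) (h : MrpRedOf K V red f g)
    (e : g = algebraMap (ResidueField A) F' a * γ ^ n) (hu : TtalIsU V (f * G₀ ^ n)) :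
    ∃ δ : F', δ ≠ 0 ∧ red ⟨f * G₀ ^ n, hu.1⟩ = δ ^ n := by
  have hf := mrp_redOf_ne_zero h
  obtain ⟨h', hG'⟩ := mrp_redOf_exists H hG₀
  have h2 := mrp_redOf_mul h (mrp_redOf_pow hG' n)
  have hu0 : f * G₀ ^ n ≠ 0 := mul_ne_zero hf (pow_ne_zero n hG₀)
  have hr0 := mrp_red_ne_zero H hu0 hu
  have h3 := mrp_redOf_of_mem (K := K) hu.1 hr0
  obtain ⟨b, hb0, hb⟩ := mrp_redOf_unique H h2 h3
  obtain ⟨β, hβ⟩ := hk (b * a)
  have key : red ⟨f * G₀ ^ n, hu.1⟩ = (algebraMap (ResidueField A) F' β * γ * h') ^ n := by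
    rw [hb, e, mul_pow, mul_pow, ← map_pow, hβ, map_mul]
    ring
  refine ⟨algebraMap (ResidueField A) F' β * γ * h', ?_, key⟩
  intro h0
  rw [h0, zero_pow hn] at key
  exact hr0 key

end One

section Two

variable {K : Type*} [Field K] {A : ValuationSubring K} {F : Type*} [Field F] [Algebra K F]
variable {F₁ F₂ : Type*} [Field F₁] [Field F₂] [Algebra (ResidueField A) F₁]
  [Algebra (ResidueField A) F₂] {V₁ V₂ : ValuationSubring F} {red₁ : V₁ →+* F₁}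
  {red₂ : V₂ →+* F₂}

/-- **(K2), function form.** -/
theorem mrp_kerFun_aux (S : MrpSetup A V₁ V₂ red₁ red₂) {n : ℕ} (hn : n ≠ 0)
    (hk : ∀ a : ResidueField A, ∃ b : ResidueField A, b ^ n = a)
    {f : F} {g₁ γ₁ : F₁} {g₂ γ₂ : F₂} {a₁ a₂ : ResidueField A}
    (h₁ : MrpRedOf K V₁ red₁ f g₁) (h₂ : MrpRedOf K V₂ red₂ f g₂)
    (e₁ : g₁ = algebraMap (ResidueField A) F₁ a₁ * γ₁ ^ n)
    (e₂ : g₂ = algebraMap (ResidueField A) F₂ a₂ * γ₂ ^ n) :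
    ∃ G : F, G ≠ 0 ∧ f * G ^ n - 1 ∈ V₁.nonunits ∧ f * G ^ n - 1 ∈ V₂.nonunits := by
  have hf := mrp_redOf_ne_zero h₁
  obtain ⟨G₀, hG₀⟩ := ttal_hnorm S.idem S.root S.rk S.sc₁ S.sc₂ n hn (Units.mk0 f hf)
  rw [ttal_mem_units] at hG₀
  have hG₀0 : (G₀ : F) ≠ 0 := G₀.ne_zero
  have eu : ((Units.mk0 f hf * G₀ ^ n : Fˣ) : F) = f * (G₀ : F) ^ n := by
    rw [Units.val_mul, Units.val_pow_eq_pow_val, Units.val_mk0]
  rw [eu] at hG₀
  obtain ⟨hu₁, hu₂⟩ := hG₀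
  obtain ⟨δ₁, hδ₁0, hδ₁⟩ := mrp_red_pow S.one₁ hn hk hG₀0 h₁ e₁ hu₁
  obtain ⟨δ₂, hδ₂0, hδ₂⟩ := mrp_red_pow S.one₂ hn hk hG₀0 h₂ e₂ hu₂
  obtain ⟨E, hE⟩ := S.surj (δ₁⁻¹, δ₂⁻¹)
  have hE₁ : red₁ ⟨(E : F), E.2.1⟩ = δ₁⁻¹ := congrArg Prod.fst hE
  have hE₂ : red₂ ⟨(E : F), E.2.2⟩ = δ₂⁻¹ := congrArg Prod.snd hE
  have hE0 : (E : F) ≠ 0 := by
    intro h0
    have : (⟨(E : F), E.2.1⟩ : V₁) = 0 := Subtype.ext h0
    rw [this, map_zero] at hE₁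
    exact inv_ne_zero hδ₁0 hE₁.symm
  refine ⟨(G₀ : F) * (E : F), mul_ne_zero hG₀0 hE0, ?_, ?_⟩
  · have hm : f * ((G₀ : F) * (E : F)) ^ n - 1 ∈ V₁ := by
      rw [mul_pow, ← mul_assoc]
      exact sub_mem (V₁.mul_mem _ _ hu₁.1 (pow_mem E.2.1 n)) V₁.one_mem
    rw [← S.ker₁ ⟨_, hm⟩]
    have : (⟨f * ((G₀ : F) * (E : F)) ^ n - 1, hm⟩ : V₁) =
        ⟨f * (G₀ : F) ^ n, hu₁.1⟩ * ⟨(E : F), E.2.1⟩ ^ n - 1 := by
      apply Subtype.ext
      show f * ((G₀ : F) * (E : F)) ^ n - 1 = f * (G₀ : F) ^ n * (E : F) ^ n - 1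
      ring
    rw [this, map_sub, map_mul, map_pow, map_one, hδ₁, hE₁, ← mul_pow,
      mul_inv_cancel₀ hδ₁0, one_pow, sub_self]
  · have hm : f * ((G₀ : F) * (E : F)) ^ n - 1 ∈ V₂ := by
      rw [mul_pow, ← mul_assoc]
      exact sub_mem (V₂.mul_mem _ _ hu₂.1 (pow_mem E.2.2 n)) V₂.one_mem
    rw [← S.ker₂ ⟨_, hm⟩]
    have : (⟨f * ((G₀ : F) * (E : F)) ^ n - 1, hm⟩ : V₂) =
        ⟨f * (G₀ : F) ^ n, hu₂.1⟩ * ⟨(E : F), E.2.2⟩ ^ n - 1 := by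
      apply Subtype.ext
      show f * ((G₀ : F) * (E : F)) ^ n - 1 = f * (G₀ : F) ^ n * (E : F) ^ n - 1
      ring
    rw [this, map_sub, map_mul, map_pow, map_one, hδ₂, hE₂, ← mul_pow,
      mul_inv_cancel₀ hδ₂0, one_pow, sub_self]

/-- **(K2), class form** : the class lies in the landed `Γ₀`. -/
theorem mrp_ker_aux [HasPrincipalDivisors K F] (S : MrpSetup A V₁ V₂ red₁ red₂) {n : ℕ}
    (hn : n ≠ 0) (hk : ∀ a : ResidueField A, ∃ b : ResidueField A, b ^ n = a)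
    {D : Divisor.degZero (K := K) (F := F)} {f : F} {g₁ γ₁ : F₁} {g₂ γ₂ : F₂}
    {a₁ a₂ : ResidueField A}
    (hD : ∀ v : Place K F, v.ord f = (n : ℤ) * (D : Divisor K F) v)
    (h₁ : MrpRedOf K V₁ red₁ f g₁) (h₂ : MrpRedOf K V₂ red₂ f g₂)
    (e₁ : g₁ = algebraMap (ResidueField A) F₁ a₁ * γ₁ ^ n)
    (e₂ : g₂ = algebraMap (ResidueField A) F₂ a₂ * γ₂ ^ n) :
    Pic0.mk D ∈ ttalKum (K := K) (ttalOne V₁ V₂) n := by
  have hf := mrp_redOf_ne_zero h₁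
  obtain ⟨G, hG0, hG₁, hG₂⟩ := mrp_kerFun_aux S hn hk h₁ h₂ e₁ e₂
  obtain ⟨E, hE, hE0⟩ := HasPrincipalDivisors.exists_divisor (K := K) G hG0
  set E' : Divisor.degZero (K := K) (F := F) := ⟨E, hE0⟩ with hE'
  have hw0 : f * G ^ n ≠ 0 := mul_ne_zero hf (pow_ne_zero n hG0)
  refine ⟨D + E', ?_, Units.mk0 (f * G ^ n) hw0, ⟨hG₁, hG₂⟩, fun v => ?_⟩
  · rw [Pic0.mk_add]
    have : Pic0.mk E' = 0 := mrp_mk_eq_zero_iff.2 ⟨G, hG0, fun v => hE v⟩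
    rw [this, add_zero]
  · rw [Units.val_mk0, Place.ord_mul v hf (pow_ne_zero n hG0), hD v, mrp_ord_pow, ← hE v]
    simp only [AddSubgroup.coe_add, Finsupp.coe_add, Pi.add_apply]
    ring

end Two

/-- **(K2), function form.** -/
theorem mrp_kerFun : MrpKerFunSpec := by
  intro K _ A F _ _ F₁ F₂ _ _ _ _ V₁ V₂ red₁ red₂ S n hn hk f g₁ γ₁ g₂ γ₂ a₁ a₂ h₁ h₂ e₁ e₂
  obtain ⟨G, hG0, hG₁, hG₂⟩ := mrp_kerFun_aux S hn hk h₁ h₂ e₁ e₂
  refine ⟨G, 1, hG0, one_ne_zero, ?_, ?_⟩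
  · rw [map_one, one_mul]; exact hG₁
  · rw [map_one, one_mul]; exact hG₂

/-- **(K2), class form.** -/
theorem mrp_ker : MrpKerSpec := by
  intro K _ A F _ _ _ F₁ F₂ _ _ _ _ V₁ V₂ red₁ red₂ S n hn hk D f g₁ γ₁ g₂ γ₂ a₁ a₂ hD h₁ h₂ e₁ e₂
  exact mrp_ker_aux S hn hk hD h₁ h₂ e₁ e₂

end Fermat.Agent.MR
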