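import Fermat.Agent.MR.Sp.Sp
import Fermat.Agent.TT.Red2.Red2All
import Fermat.Agent.TT.Red2.IdemInst
import Fermat.Agent.TT.Red2.RedPack
import Fermat.Agent.TT.Nodal.Inst
import Fermat.Agent.MW.GT.X0
import Fermat.Agent.V.Frob.OfRR

/-!
# PROGRAM MR (S44), block `mrp` : the setup at the LANDED two-valuation model of `X₀(M p)`

Owner: helper1.  Namespace `Fermat.Agent.MR`, prefix `mrp`.

* `mrp_setup_inst M A hpM h5 hA : MrpSetup A (ttrV1 ..) (ttraV2 ..) (ttraRed1 ..) (ttraRed2 ..)`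
  (`p ≥ 5`, `p ∤ M`, `A` over `p`), hence all the leaves of `MR/Sp/Spec.lean` at the concrete terms.
-/

set_option autoImplicit false
set_option linter.unusedSectionVars false
set_option linter.unusedVariables false

noncomputable section

namespace Fermat.Agent.MR

open AlgebraicCurve IsLocalRing ModularCurve Fermat.Agent.TT Fermat.Agent.G Fermat.Agent.FF
  Fermat.Agent.V

local notation "Qb" => AlgebraicClosure ℚ

variable (M : ℕ) [NeZero M] {p : ℕ} [Fact p.Prime] [NeZero p]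
variable (A : ValuationSubring Qb)

/-- **the setup of the block `mrp` at the landed model of `X₀(M p)`.** -/
theorem mrp_setup_inst (hpM : ¬ p ∣ M) (h5 : 5 ≤ p) (hA : A.LiesOverPrime p) :
    MrpSetup A (ttrV1 M A hpM hA) (ttraV2 M A hpM hA) (ttraRed1 M A hpM hA)
      (ttraRed2 M A hpM hA) := by
  have h₁ := ttrvp_tb1' M A hpM hA
  have h₂ := ttra_red₂ M A hpM hA h₁
  have hgood : FfGoodLevel M p := ⟨hpM, Or.inl h5⟩
  obtain ⟨RRk, -, -, -⟩ := ttnk_inst_bundle M A hA hgood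
  have htr : Transcendental (ResidueField ↥A) (grdK M A (grdi_mem_j M)) :=
    (grd_chart_j M A hpM hA h5).sepK.transcendental
  have hsurj := ttre_inst_surjective M A hpM hA (grdi_mem_j M) htr
  exact
    { idem := ttra_idem M A hpM hA h₁
      ker₁ := ttra_ker₁ M A hpM hA h₁
      ker₂ := ttra_ker₂ M A hpM hA h₁
      sc₁ := ttra_sc₁ M A hpM hA h₁
      sc₂ := ttra_sc₂ M A hpM hA h₁
      const₁ := fun a => h₁.red_const a
      const₂ := fun a => h₂.red_const a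
      surj := fun y => by
        obtain ⟨x, hx⟩ := hsurj y
        exact ⟨⟨x.1, x.2⟩, hx⟩
      root := ttal_hroot_qbar
      rk := ttal_hrk_qbar A (Fact.out : p.Prime) hA
      cst₁ := fun g hg h => v27f_hconst_of_rr RRk g hg h
      cst₂ := fun g hg h => v27f_hconst_of_rr RRk g hg h
      cst := fun f hf h => v27f_hconst_of_rr (Fermat.Agent.MW.mwgt_rr_X0 (M * p)) f hf h }

/-- `n`-th roots in the residue field. -/
theorem mrp_roots_inst {n : ℕ} (hn : n ≠ 0) (a : ResidueField A) :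
    ∃ b : ResidueField A, b ^ n = a :=
  haveI := grd_isAlgClosed_residue A
  IsAlgClosed.exists_pow_nat_eq a (Nat.pos_of_ne_zero hn)

/-- principal divisors on `X₀(N)` over `ℚ̄`. -/
theorem mrp_hasDiv_bar (N : ℕ) [NeZero N] :
    HasPrincipalDivisors Qb ↥(modularFunctionFieldBar N) :=
  (Fermat.Agent.MW.mwgt_rr_X0 N).hasDiv

/-- principal divisors on the components `X₀(M)_k`. -/
theorem mrp_hasDiv_res (hpM : ¬ p ∣ M) (h5 : 5 ≤ p) (hA : A.LiesOverPrime p) :
    HasPrincipalDivisors (ResidueField A) ↥(modularFunctionFieldFullC (ResidueField A) M) :=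
  (ttnk_inst_bundle M A hA ⟨hpM, Or.inl h5⟩).1.hasDiv

/-- **(K2) at the landed model** (= helper26's `MrmKerSpec` with the two constants non-zero): if
both reductions of the Kummer function `f` of `D` (`p D = div f`) are a constant times a `p`-th
power, then `[D] ∈ Γ₀ = ttalKum (ttalOne V₁ V₂) p`. -/
theorem mrp_ker_inst (hpM : ¬ p ∣ M) (h5 : 5 ≤ p) (hA : A.LiesOverPrime p)
    (D : Divisor.degZero (K := Qb) (F := ↥(modularFunctionFieldBar (M * p))))
    (f : modularFunctionFieldBar (M * p)) (c₁ c₂ : Qb) (hc₁ : c₁ ≠ 0) (hc₂ : c₂ ≠ 0)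
    (h₁ : TtalIsU (ttrV1 M A hpM hA) (algebraMap Qb _ c₁ * f))
    (h₂ : TtalIsU (ttraV2 M A hpM hA) (algebraMap Qb _ c₂ * f))
    (hD : ∀ P : Place Qb ↥(modularFunctionFieldBar (M * p)),
      (p : ℤ) * (D : Divisor Qb ↥(modularFunctionFieldBar (M * p))) P = P.ord f)
    (e₁ : ∃ (a : ResidueField A) (h : ↥(modularFunctionFieldFullC (ResidueField A) M)),
      ttraRed1 M A hpM hA ⟨algebraMap Qb _ c₁ * f, h₁.1⟩ =
        algebraMap (ResidueField A) ↥(modularFunctionFieldFullC (ResidueField A) M) a * h ^ p)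
    (e₂ : ∃ (a : ResidueField A) (h : ↥(modularFunctionFieldFullC (ResidueField A) M)),
      ttraRed2 M A hpM hA ⟨algebraMap Qb _ c₂ * f, h₂.1⟩ =
        algebraMap (ResidueField A) ↥(modularFunctionFieldFullC (ResidueField A) M) a * h ^ p) :
    Pic0.mk D ∈ ttalKum (K := Qb) (ttalOne (ttrV1 M A hpM hA) (ttraV2 M A hpM hA)) p := by
  have hp0 : p ≠ 0 := (Fact.out : p.Prime).ne_zero
  have hp0' : (p : ℤ) ≠ 0 := by exact_mod_cast hp0
  by_cases hf : f = 0
  · have hD0 : D = 0 := by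
      apply Subtype.ext
      ext P
      have := hD P
      rw [hf, Place.ord_zero] at this
      simpa using (mul_eq_zero.1 this).resolve_left hp0'
    rw [hD0]
    exact (ttalKum _ p).zero_mem
  have S := mrp_setup_inst M A hpM h5 hA
  have := mrp_hasDiv_bar (M * p)
  obtain ⟨a₁, γ₁, hγ₁⟩ := e₁
  obtain ⟨a₂, γ₂, hγ₂⟩ := e₂
  have hcf₁ : algebraMap Qb (modularFunctionFieldBar (M * p)) c₁ * f ≠ 0 :=
    mul_ne_zero ((map_ne_zero_iff _ (algebraMap Qb _).injective).2 hc₁) hf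
  have hcf₂ : algebraMap Qb (modularFunctionFieldBar (M * p)) c₂ * f ≠ 0 :=
    mul_ne_zero ((map_ne_zero_iff _ (algebraMap Qb _).injective).2 hc₂) hf
  have r₁ : MrpRedOf Qb (ttrV1 M A hpM hA) (ttraRed1 M A hpM hA) f
      (ttraRed1 M A hpM hA ⟨algebraMap Qb _ c₁ * f, h₁.1⟩) :=
    ⟨c₁, h₁.1, hc₁, mrp_red_ne_zero S.one₁ hcf₁ h₁, rfl⟩
  have r₂ : MrpRedOf Qb (ttraV2 M A hpM hA) (ttraRed2 M A hpM hA) f
      (ttraRed2 M A hpM hA ⟨algebraMap Qb _ c₂ * f, h₂.1⟩) :=
    ⟨c₂, h₂.1, hc₂, mrp_red_ne_zero S.one₂ hcf₂ h₂, rfl⟩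
  exact mrp_ker_aux S hp0 (mrp_roots_inst A hp0) (fun v => (hD v).symm) r₁ r₂ hγ₁ hγ₂

/-- **(K2), contrapositive** : a class OUTSIDE `Γ₀` has a Kummer function one of whose two
reductions is NOT a constant times a `p`-th power. -/
theorem mrp_notPow_inst (hpM : ¬ p ∣ M) (h5 : 5 ≤ p) (hA : A.LiesOverPrime p)
    (D : Divisor.degZero (K := Qb) (F := ↥(modularFunctionFieldBar (M * p))))
    (f : modularFunctionFieldBar (M * p)) (c₁ c₂ : Qb) (hc₁ : c₁ ≠ 0) (hc₂ : c₂ ≠ 0)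
    (h₁ : TtalIsU (ttrV1 M A hpM hA) (algebraMap Qb _ c₁ * f))
    (h₂ : TtalIsU (ttraV2 M A hpM hA) (algebraMap Qb _ c₂ * f))
    (hD : ∀ P : Place Qb ↥(modularFunctionFieldBar (M * p)),
      (p : ℤ) * (D : Divisor Qb ↥(modularFunctionFieldBar (M * p))) P = P.ord f)
    (hx : Pic0.mk D ∉ ttalKum (K := Qb) (ttalOne (ttrV1 M A hpM hA) (ttraV2 M A hpM hA)) p) :
    (¬ ∃ (a : ResidueField A) (h : ↥(modularFunctionFieldFullC (ResidueField A) M)),
      ttraRed1 M A hpM hA ⟨algebraMap Qb _ c₁ * f, h₁.1⟩ =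
        algebraMap (ResidueField A) ↥(modularFunctionFieldFullC (ResidueField A) M) a * h ^ p) ∨
    (¬ ∃ (a : ResidueField A) (h : ↥(modularFunctionFieldFullC (ResidueField A) M)),
      ttraRed2 M A hpM hA ⟨algebraMap Qb _ c₂ * f, h₂.1⟩ =
        algebraMap (ResidueField A) ↥(modularFunctionFieldFullC (ResidueField A) M) a * h ^ p) := by
  by_contra hcon
  rw [not_or, not_not, not_not] at hcon
  exact hx (mrp_ker_inst M A hpM h5 hA D f c₁ c₂ hc₁ hc₂ h₁ h₂ hD hcon.1 hcon.2)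

end Fermat.Agent.MR
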