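import Fermat.Agent.MR.Sp.Spec

/-!
# PROGRAM MR (S44), block `mrp` : (K1) the reduction of a function up to constants

Owner: helper1.  Namespace `Fermat.Agent.MR`, prefix `mrp`.

`MrpOne A V red` : the one-valuation part of `MrpSetup`.  For such `(V, red)` :
existence (`mrp_redOf_exists`), uniqueness up to `kˣ` (`mrp_redOf_unique`), multiplicativity
(`mrp_redOf_mul`, `_pow`, `_inv`, `_const`, `_one`), and **`mrp_redOfSpec : MrpRedOfSpec`**.
-/

set_option autoImplicit false
set_option linter.unusedSectionVars false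
set_option linter.unusedVariables false

noncomputable section

namespace Fermat.Agent.MR

open AlgebraicCurve IsLocalRing Fermat.Agent.TT

/-- the one-valuation inputs. -/
structure MrpOne {K : Type*} [Field K] (A : ValuationSubring K) {F : Type*} [Field F] [Algebra K F]
    {F' : Type*} [Field F'] [Algebra (ResidueField A) F'] (V : ValuationSubring F)
    (red : V →+* F') : Prop where
  cmem : ∀ a : K, a ∈ A → algebraMap K F a ∈ V
  cmax : ∀ a : K, a ∈ A.nonunits → algebraMap K F a ∈ V.nonunits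
  ker : ∀ x : V, red x = 0 ↔ (x : F) ∈ V.nonunits
  sc : ∀ f : F, f ≠ 0 → ∃ c : K, c ≠ 0 ∧ TtalIsU V (algebraMap K F c * f)
  const : ∀ a : A, red ⟨algebraMap K F (a : K), cmem _ a.2⟩ =
    algebraMap (ResidueField A) F' (residue A a)

variable {K : Type*} [Field K] {A : ValuationSubring K} {F : Type*} [Field F] [Algebra K F]
variable {F' : Type*} [Field F'] [Algebra (ResidueField A) F']

section Setup

variable {F₁ F₂ : Type*} [Field F₁] [Field F₂] [Algebra (ResidueField A) F₁]
  [Algebra (ResidueField A) F₂] {V₁ V₂ : ValuationSubring F} {red₁ : V₁ →+* F₁}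
  {red₂ : V₂ →+* F₂}

theorem MrpSetup.one₁ (S : MrpSetup A V₁ V₂ red₁ red₂) : MrpOne A V₁ red₁ :=
  ⟨S.idem.const₁, S.idem.max₁, S.ker₁, S.sc₁, S.const₁⟩

theorem MrpSetup.one₂ (S : MrpSetup A V₁ V₂ red₁ red₂) : MrpOne A V₂ red₂ :=
  ⟨S.idem.const₂, S.idem.max₂, S.ker₂, S.sc₂, S.const₂⟩

end Setup

variable {V : ValuationSubring F} {red : V →+* F'}

/-- a non-zero unit of `V` is not in the maximal ideal. -/
theorem mrp_isU_not_nonunits {x : F} (hx0 : x ≠ 0) (hx : TtalIsU V x) : x ∉ V.nonunits := by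
  intro h
  rw [ValuationSubring.mem_nonunits_iff] at h
  have h2 : V.valuation x⁻¹ ≤ 1 := (V.valuation_le_one_iff _).2 hx.2
  have h3 : V.valuation x * V.valuation x⁻¹ = 1 := by
    rw [← map_mul, mul_inv_cancel₀ hx0, map_one]
  have h4 : V.valuation x * V.valuation x⁻¹ < 1 :=
    calc V.valuation x * V.valuation x⁻¹ ≤ V.valuation x * 1 := by gcongr
      _ = V.valuation x := mul_one _
      _ < 1 := h
  exact absurd h3 (ne_of_lt h4)

/-- an element of `V` outside the maximal ideal is a unit. -/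
theorem mrp_isU_of_not_nonunits {x : F} (hx : x ∈ V) (h : x ∉ V.nonunits) : TtalIsU V x := by
  refine ⟨hx, ?_⟩
  rw [ValuationSubring.mem_nonunits_iff, not_lt] at h
  have h1 : V.valuation x = 1 := le_antisymm ((V.valuation_le_one_iff _).2 hx) h
  rw [← V.valuation_le_one_iff, map_inv₀, h1, inv_one]

/-- **existence** of a reduction. -/
theorem mrp_redOf_exists (H : MrpOne A V red) {f : F} (hf : f ≠ 0) : ∃ g, MrpRedOf K V red f g := by
  obtain ⟨c, hc, hU⟩ := H.sc f hf
  have hcf : algebraMap K F c * f ≠ 0 :=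
    mul_ne_zero ((map_ne_zero_iff _ (algebraMap K F).injective).2 hc) hf
  refine ⟨red ⟨_, hU.1⟩, c, hU.1, hc, ?_, rfl⟩
  intro h0
  exact mrp_isU_not_nonunits hcf hU ((H.ker _).1 h0)

/-- the function of a reduction is non-zero. -/
theorem mrp_redOf_ne_zero {f : F} {g : F'} (h : MrpRedOf K V red f g) : f ≠ 0 := by
  rintro rfl
  obtain ⟨c, hc, -, hg, hr⟩ := h
  apply hg
  rw [← hr]
  have : (⟨algebraMap K F c * 0, hc⟩ : V) = 0 := Subtype.ext (mul_zero _)
  rw [this, map_zero]

/-- the witness of a reduction is a unit of `V`. -/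
theorem mrp_redOf_isU (H : MrpOne A V red) {c : K} {f : F} (h : algebraMap K F c * f ∈ V)
    (hr : red ⟨algebraMap K F c * f, h⟩ ≠ 0) : TtalIsU V (algebraMap K F c * f) :=
  mrp_isU_of_not_nonunits h (fun hn => hr ((H.ker _).2 hn))

/-- a constant which is a unit of `V` is a unit of `A`. -/
theorem mrp_const_unit (H : MrpOne A V red) {a : K} (ha0 : a ≠ 0)
    (ha : TtalIsU V (algebraMap K F a)) : a ∈ A ∧ a ∉ A.nonunits := by
  have haF : algebraMap K F a ≠ 0 := (map_ne_zero_iff _ (algebraMap K F).injective).2 ha0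
  constructor
  · by_contra hA
    have h1 : a⁻¹ ∈ A.nonunits := by
      rw [ValuationSubring.mem_nonunits_iff, map_inv₀]
      have : ¬ A.valuation a ≤ 1 := fun h => hA ((A.valuation_le_one_iff _).1 h)
      rw [not_le] at this
      exact inv_lt_one_of_one_lt₀ this
    have h2 := H.cmax _ h1
    rw [map_inv₀] at h2
    have hU : TtalIsU V (algebraMap K F a)⁻¹ := ⟨ha.2, by rw [inv_inv]; exact ha.1⟩
    exact mrp_isU_not_nonunits (inv_ne_zero haF) hU h2
  · intro h1
    exact mrp_isU_not_nonunits haF ha (H.cmax _ h1)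

/-- **uniqueness up to `kˣ`**. -/
theorem mrp_redOf_unique (H : MrpOne A V red) {f : F} {g g' : F'}
    (h : MrpRedOf K V red f g) (h' : MrpRedOf K V red f g') :
    ∃ a : ResidueField A, a ≠ 0 ∧ g' = algebraMap (ResidueField A) F' a * g := by
  have hf := mrp_redOf_ne_zero h
  obtain ⟨c, hc, hc0, hg, hr⟩ := h
  obtain ⟨c', hc', hc'0, hg', hr'⟩ := h'
  have hU := mrp_redOf_isU H hc (by rw [hr]; exact hg)
  have hU' := mrp_redOf_isU H hc' (by rw [hr']; exact hg')
  have hcF : algebraMap K F c ≠ 0 := (map_ne_zero_iff _ (algebraMap K F).injective).2 hc0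
  have hc'F : algebraMap K F c' ≠ 0 := (map_ne_zero_iff _ (algebraMap K F).injective).2 hc'0
  -- `a := c' / c`
  have ha0 : c' / c ≠ 0 := div_ne_zero hc'0 hc0
  have e : algebraMap K F (c' / c) = (algebraMap K F c' * f) * (algebraMap K F c * f)⁻¹ := by
    rw [map_div₀]
    field_simp
  have haU : TtalIsU V (algebraMap K F (c' / c)) := by
    rw [e]
    exact ttal_isU_mul hU' ⟨hU.2, by rw [inv_inv]; exact hU.1⟩
  obtain ⟨haA, haN⟩ := mrp_const_unit H ha0 haU
  refine ⟨residue A ⟨c' / c, haA⟩, ?_, ?_⟩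
  · intro h0
    apply haN
    rw [IsLocalRing.residue_eq_zero_iff] at h0
    rw [ValuationSubring.mem_nonunits_iff_exists_mem_maximalIdeal]
    exact ⟨haA, h0⟩
  · rw [← hr, ← hr', ← H.const ⟨c' / c, haA⟩, ← map_mul]
    congr 1
    apply Subtype.ext
    show algebraMap K F c' * f = algebraMap K F (c' / c) * (algebraMap K F c * f)
    rw [map_div₀]
    field_simp

/-- **multiplicativity**. -/
theorem mrp_redOf_mul {f f' : F} {g g' : F'} (h : MrpRedOf K V red f g)
    (h' : MrpRedOf K V red f' g') : MrpRedOf K V red (f * f') (g * g') := by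
  obtain ⟨c, hc, hc0, hg, hr⟩ := h
  obtain ⟨c', hc', hc'0, hg', hr'⟩ := h'
  have e : algebraMap K F (c * c') * (f * f') =
      (algebraMap K F c * f) * (algebraMap K F c' * f') := by
    rw [map_mul]; ring
  refine ⟨c * c', by rw [e]; exact V.mul_mem _ _ hc hc', mul_ne_zero hc0 hc'0,
    mul_ne_zero hg hg', ?_⟩
  rw [← hr, ← hr', ← map_mul]
  congr 1
  exact Subtype.ext e

/-- the reduction of `1`. -/
theorem mrp_redOf_one : MrpRedOf K V red (1 : F) (1 : F') := by
  have e : algebraMap K F 1 * (1 : F) = 1 := by rw [map_one, one_mul]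
  refine ⟨1, by rw [e]; exact V.one_mem, one_ne_zero, one_ne_zero, ?_⟩
  have : (⟨algebraMap K F 1 * 1, by rw [e]; exact V.one_mem⟩ : V) = 1 := Subtype.ext e
  rw [this, map_one]

/-- the reduction of a non-zero constant is `1`. -/
theorem mrp_redOf_const {c : K} (hc : c ≠ 0) : MrpRedOf K V red (algebraMap K F c) (1 : F') := by
  have e : algebraMap K F c⁻¹ * algebraMap K F c = 1 := by
    rw [← map_mul, inv_mul_cancel₀ hc, map_one]
  refine ⟨c⁻¹, by rw [e]; exact V.one_mem, inv_ne_zero hc, one_ne_zero, ?_⟩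
  have : (⟨algebraMap K F c⁻¹ * algebraMap K F c, by rw [e]; exact V.one_mem⟩ : V) = 1 :=
    Subtype.ext e
  rw [this, map_one]

/-- powers. -/
theorem mrp_redOf_pow {f : F} {g : F'} (h : MrpRedOf K V red f g) (n : ℕ) :
    MrpRedOf K V red (f ^ n) (g ^ n) := by
  induction n with
  | zero => simpa using mrp_redOf_one (K := K) (V := V) (red := red)
  | succ m ih =>
    rw [pow_succ, pow_succ]
    exact mrp_redOf_mul ih h

/-- inverses. -/
theorem mrp_redOf_inv (H : MrpOne A V red) {f : F} {g : F'} (h : MrpRedOf K V red f g) :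
    MrpRedOf K V red f⁻¹ g⁻¹ := by
  have hf := mrp_redOf_ne_zero h
  obtain ⟨c, hc, hc0, hg, hr⟩ := h
  have hU := mrp_redOf_isU H hc (by rw [hr]; exact hg)
  have e : algebraMap K F c⁻¹ * f⁻¹ = (algebraMap K F c * f)⁻¹ := by
    rw [map_inv₀, mul_inv]
  refine ⟨c⁻¹, by rw [e]; exact hU.2, inv_ne_zero hc0, inv_ne_zero hg, ?_⟩
  have hcF : algebraMap K F c ≠ 0 := (map_ne_zero_iff _ (algebraMap K F).injective).2 hc0
  have h1 : red ⟨algebraMap K F c⁻¹ * f⁻¹, by rw [e]; exact hU.2⟩ *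
      red ⟨algebraMap K F c * f, hc⟩ = 1 := by
    rw [← map_mul]
    have : (⟨algebraMap K F c⁻¹ * f⁻¹, by rw [e]; exact hU.2⟩ : V) *
        ⟨algebraMap K F c * f, hc⟩ = 1 := by
      apply Subtype.ext
      show algebraMap K F c⁻¹ * f⁻¹ * (algebraMap K F c * f) = 1
      rw [e, inv_mul_cancel₀ (mul_ne_zero hcF hf)]
    rw [this, map_one]
  rw [hr] at h1
  exact eq_inv_of_mul_eq_one_left h1

/-- a reduction with witness `c = 1`. -/
theorem mrp_redOf_of_mem {f : F} (hf : f ∈ V) (hr : red ⟨f, hf⟩ ≠ 0) :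
    MrpRedOf K V red f (red ⟨f, hf⟩) := by
  have e : algebraMap K F 1 * f = f := by rw [map_one, one_mul]
  refine ⟨1, by rw [e]; exact hf, one_ne_zero, hr, ?_⟩
  congr 1
  exact Subtype.ext e

/-- **(K1)**. -/
theorem mrp_redOfSpec : MrpRedOfSpec := by
  intro K _ A F _ _ F₁ F₂ _ _ _ _ V₁ V₂ red₁ red₂ S
  refine ⟨fun f hf => ⟨mrp_redOf_exists S.one₁ hf, mrp_redOf_exists S.one₂ hf⟩,
    fun f g g' h h' => mrp_redOf_unique S.one₁ h h',
    fun f g g' h h' => mrp_redOf_unique S.one₂ h h',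
    fun f f' g g' h h' => mrp_redOf_mul h h', fun f f' g g' h h' => mrp_redOf_mul h h'⟩

end Fermat.Agent.MR
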