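import Fermat.Agent.MR.Sp.Ker
import Fermat.Agent.TT.Alpha.Rank

/-!
# PROGRAM MR (S44), block `mrp` : (K4) the specialisation `sp`, (K5-sp) its Hecke-equivariance

Owner: helper1.  Namespace `Fermat.Agent.MR`, prefix `mrp`.

* `mrp_spExists : MrpSpExistsSpec`, `mrp_spUnique : MrpSpUniqueSpec`, `mrp_spAdd : MrpSpAddSpec`,
  `mrp_spKer : MrpSpKerSpec`, `mrp_spHecke : MrpSpHeckeSpec`,
  `mrp_setupOfModel : MrpSetupOfModelSpec`.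
-/

set_option autoImplicit false
set_option linter.unusedSectionVars false
set_option linter.unusedVariables false

noncomputable section

namespace Fermat.Agent.MR

open AlgebraicCurve IsLocalRing Fermat.Agent.TT

section Pic

variable {K : Type*} [Field K] {F : Type*} [Field F] [Algebra K F]

/-- a divisor all of whose coefficients are divisible by `n`, of degree `0`, is `n` times a
divisor of degree `0`. -/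
theorem mrp_exists_div {n : ℕ} (hn : n ≠ 0) (E : Divisor K F) (hE0 : Divisor.degree E = 0)
    (hdiv : ∀ Q : Place K F, (n : ℤ) ∣ E Q) :
    ∃ Ξ : Divisor.degZero (K := K) (F := F), ∀ Q : Place K F,
      E Q = (n : ℤ) * (Ξ : Divisor K F) Q := by
  have hn' : (n : ℤ) ≠ 0 := by exact_mod_cast hn
  set Ξ : Divisor K F := Finsupp.mapRange (fun z : ℤ => z / (n : ℤ)) (Int.zero_ediv _) E with hΞ
  have h1 : ∀ Q : Place K F, E Q = (n : ℤ) * Ξ Q := by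
    intro Q
    rw [hΞ, Finsupp.mapRange_apply, Int.mul_ediv_cancel' (hdiv Q)]
  have h2 : (n : ℤ) • Ξ = E := by
    ext Q
    rw [Finsupp.smul_apply, smul_eq_mul, ← h1 Q]
  have h3 : Divisor.degree Ξ = 0 := by
    have : (n : ℤ) • Divisor.degree Ξ = 0 := by rw [← map_zsmul, h2, hE0]
    rw [smul_eq_mul] at this
    exact (mul_eq_zero.1 this).resolve_left hn'
  exact ⟨⟨Ξ, h3⟩, h1⟩

/-- `n D = div f` implies `n [D] = 0`. -/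
theorem mrp_zsmul_mk_eq_zero {n : ℕ} {D : Divisor.degZero (K := K) (F := F)} {f : F}
    (hf : f ≠ 0) (h : ∀ v : Place K F, v.ord f = (n : ℤ) * (D : Divisor K F) v) :
    (n : ℤ) • Pic0.mk D = 0 := by
  have h1 : (n : ℤ) • Pic0.mk D = Pic0.mk ((n : ℤ) • D) :=
    (map_zsmul (QuotientAddGroup.mk' _) (n : ℤ) D).symm
  rw [h1, mrp_mk_eq_zero_iff]
  refine ⟨f, hf, fun v => ?_⟩
  rw [h v]
  simp [Finsupp.smul_apply]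

end Pic

section Two

variable {K : Type*} [Field K] {A : ValuationSubring K} {F : Type*} [Field F] [Algebra K F]
variable {F₁ F₂ : Type*} [Field F₁] [Field F₂] [Algebra (ResidueField A) F₁]
  [Algebra (ResidueField A) F₂] {V₁ V₂ : ValuationSubring F} {red₁ : V₁ →+* F₁}
  {red₂ : V₂ →+* F₂}

/-- the reduction of a function `≡ 1`. -/
theorem mrp_redOf_one_unit {F' : Type*} [Field F'] [Algebra (ResidueField A) F']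
    {V : ValuationSubring F} {red : V →+* F'} (H : MrpOne A V red) {f : F}
    (hf : f - 1 ∈ V.nonunits) : MrpRedOf K V red f (1 : F') := by
  have hU := ttal_isU_of_one hf
  have hm : f - 1 ∈ V := sub_mem hU.1 V.one_mem
  have h0 : red ⟨f - 1, hm⟩ = 0 := (H.ker _).2 hf
  have h1 : red ⟨f, hU.1⟩ = 1 := by
    have : (⟨f - 1, hm⟩ : V) = ⟨f, hU.1⟩ - 1 := Subtype.ext rfl
    rw [this, map_sub, map_one, sub_eq_zero] at h0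
    exact h0
  have := mrp_redOf_of_mem (K := K) (red := red) hU.1 (by rw [h1]; exact one_ne_zero)
  rwa [h1] at this

/-- **(K4)** existence. -/
theorem mrp_spExists_aux [HasPrincipalDivisors (ResidueField A) F₁]
    [HasPrincipalDivisors (ResidueField A) F₂] {n : ℕ} (hn : n ≠ 0)
    {D : Divisor.degZero (K := K) (F := F)} {f : F} {g₁ : F₁} {g₂ : F₂} (hf : f ≠ 0)
    (hD : ∀ v : Place K F, v.ord f = (n : ℤ) * (D : Divisor K F) v)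
    (h₁ : MrpRedOf K V₁ red₁ f g₁) (h₂ : MrpRedOf K V₂ red₂ f g₂)
    (hd₁ : ∀ Q : Place (ResidueField A) F₁, (n : ℤ) ∣ Q.ord g₁)
    (hd₂ : ∀ Q : Place (ResidueField A) F₂, (n : ℤ) ∣ Q.ord g₂) :
    ∃ ξ₁ ξ₂, MrpSp A V₁ V₂ red₁ red₂ n (Pic0.mk D) ξ₁ ξ₂ := by
  have hg₁ : g₁ ≠ 0 := by obtain ⟨_, _, _, h, _⟩ := h₁; exact h
  have hg₂ : g₂ ≠ 0 := by obtain ⟨_, _, _, h, _⟩ := h₂; exact h
  obtain ⟨E₁, hE₁, hE₁0⟩ := HasPrincipalDivisors.exists_divisor (K := ResidueField A) g₁ hg₁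
  obtain ⟨E₂, hE₂, hE₂0⟩ := HasPrincipalDivisors.exists_divisor (K := ResidueField A) g₂ hg₂
  obtain ⟨Ξ₁, hΞ₁⟩ := mrp_exists_div hn E₁ hE₁0 (fun Q => by rw [hE₁ Q]; exact hd₁ Q)
  obtain ⟨Ξ₂, hΞ₂⟩ := mrp_exists_div hn E₂ hE₂0 (fun Q => by rw [hE₂ Q]; exact hd₂ Q)
  exact ⟨Pic0.mk Ξ₁, Pic0.mk Ξ₂, D, f, g₁, g₂, Ξ₁, Ξ₂, rfl, hf, hD, h₁, h₂,
    fun Q => by rw [← hE₁ Q, hΞ₁ Q], fun Q => by rw [← hE₂ Q, hΞ₂ Q], rfl, rfl⟩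

/-- two Kummer functions of the same class differ by a constant and an `n`-th power. -/
theorem mrp_kummer_change (S : MrpSetup A V₁ V₂ red₁ red₂) {n : ℕ}
    {D D' : Divisor.degZero (K := K) (F := F)} {f f' : F} (hDD : Pic0.mk D = Pic0.mk D')
    (hf : f ≠ 0) (hf' : f' ≠ 0)
    (hD : ∀ v : Place K F, v.ord f = (n : ℤ) * (D : Divisor K F) v)
    (hD' : ∀ v : Place K F, v.ord f' = (n : ℤ) * (D' : Divisor K F) v) :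
    ∃ (h : F) (c : K), h ≠ 0 ∧ c ≠ 0 ∧ f' = algebraMap K F c * (f * h ^ n) := by
  obtain ⟨h, hh0, hh⟩ := mrp_mk_eq_mk_iff.1 hDD
  have hq0 : f' * (f * h ^ n)⁻¹ ≠ 0 :=
    mul_ne_zero hf' (inv_ne_zero (mul_ne_zero hf (pow_ne_zero n hh0)))
  obtain ⟨c, hc⟩ := S.cst _ hq0 (fun v => by
    rw [Place.ord_mul v hf' (inv_ne_zero (mul_ne_zero hf (pow_ne_zero n hh0))), Place.ord_inv,
      Place.ord_mul v hf (pow_ne_zero n hh0), mrp_ord_pow, hD v, hD' v, ← hh v]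
    ring)
  have hc0 : c ≠ 0 := by
    rintro rfl
    rw [map_zero] at hc
    exact hq0 hc
  refine ⟨h, c, hh0, hc0, ?_⟩
  rw [← hc]
  field_simp

/-- the reductions of two Kummer functions of the same class, one valuation. -/
theorem mrp_red_change {F' : Type*} [Field F'] [Algebra (ResidueField A) F']
    {V : ValuationSubring F} {red : V →+* F'} (H : MrpOne A V red) {n : ℕ} {f f' h : F} {c : K}
    {g g' : F'} (hh0 : h ≠ 0) (hc0 : c ≠ 0) (e : f' = algebraMap K F c * (f * h ^ n))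
    (hg : MrpRedOf K V red f g) (hg' : MrpRedOf K V red f' g') :
    ∃ (r : F') (b : ResidueField A), r ≠ 0 ∧ b ≠ 0 ∧
      g' = algebraMap (ResidueField A) F' b * (g * r ^ n) := by
  obtain ⟨r, hr⟩ := mrp_redOf_exists H hh0
  have hr0 : r ≠ 0 := by obtain ⟨_, _, _, h, _⟩ := hr; exact h
  have h1 : MrpRedOf K V red f' (1 * (g * r ^ n)) := by
    rw [e]
    exact mrp_redOf_mul (mrp_redOf_const hc0) (mrp_redOf_mul hg (mrp_redOf_pow hr n))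
  rw [one_mul] at h1
  obtain ⟨b, hb0, hb⟩ := mrp_redOf_unique H h1 hg'
  exact ⟨r, b, hr0, hb0, hb⟩

/-- orders of the changed reduction. -/
theorem mrp_ord_change {k : Type*} [Field k] {F' : Type*} [Field F'] [Algebra k F'] {n : ℕ}
    {g g' r : F'} {b : k} (hg : g ≠ 0) (hr : r ≠ 0) (hb : b ≠ 0)
    (e : g' = algebraMap k F' b * (g * r ^ n)) (Q : Place k F') :
    Q.ord g' = Q.ord g + (n : ℤ) * Q.ord r := by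
  rw [e, mrp_ord_const_mul Q hb (mul_ne_zero hg (pow_ne_zero n hr)),
    Place.ord_mul Q hg (pow_ne_zero n hr), mrp_ord_pow]

/-- **(K4)** `sp` is well defined, one component. -/
theorem mrp_class_eq {k : Type*} [Field k] {F' : Type*} [Field F'] [Algebra k F'] {n : ℕ}
    (hn : n ≠ 0) {g g' r : F'} {b : k} (hg : g ≠ 0) (hr : r ≠ 0) (hb : b ≠ 0)
    (e : g' = algebraMap k F' b * (g * r ^ n)) {Ξ Ξ' : Divisor.degZero (K := k) (F := F')}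
    (hΞ : ∀ Q : Place k F', Q.ord g = (n : ℤ) * (Ξ : Divisor k F') Q)
    (hΞ' : ∀ Q : Place k F', Q.ord g' = (n : ℤ) * (Ξ' : Divisor k F') Q) :
    Pic0.mk Ξ = Pic0.mk Ξ' := by
  have hn' : (n : ℤ) ≠ 0 := by exact_mod_cast hn
  rw [mrp_mk_eq_mk_iff]
  refine ⟨r, hr, fun Q => ?_⟩
  have h1 := mrp_ord_change hg hr hb e Q
  rw [hΞ Q, hΞ' Q] at h1
  have h2 : (n : ℤ) * ((Ξ' : Divisor k F') Q - (Ξ : Divisor k F') Q) = (n : ℤ) * Q.ord r := by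
    rw [mul_sub, h1]; ring
  exact mul_left_cancel₀ hn' h2

/-- **(K4)** `sp` is well defined. -/
theorem mrp_spUnique_aux (S : MrpSetup A V₁ V₂ red₁ red₂) {n : ℕ} (hn : n ≠ 0)
    {x : Pic0 K F} {ξ₁ η₁ : Pic0 (ResidueField A) F₁} {ξ₂ η₂ : Pic0 (ResidueField A) F₂}
    (h : MrpSp A V₁ V₂ red₁ red₂ n x ξ₁ ξ₂) (h' : MrpSp A V₁ V₂ red₁ red₂ n x η₁ η₂) :
    ξ₁ = η₁ ∧ ξ₂ = η₂ := by
  obtain ⟨D, f, g₁, g₂, Ξ₁, Ξ₂, hx, hf, hD, h₁, h₂, hΞ₁, hΞ₂, rfl, rfl⟩ := h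
  obtain ⟨D', f', g₁', g₂', Ξ₁', Ξ₂', hx', hf', hD', h₁', h₂', hΞ₁', hΞ₂', rfl, rfl⟩ := h'
  obtain ⟨h, c, hh0, hc0, e⟩ := mrp_kummer_change S (hx.trans hx'.symm) hf hf' hD hD'
  have hg₁ : g₁ ≠ 0 := by obtain ⟨_, _, _, h, _⟩ := h₁; exact h
  have hg₂ : g₂ ≠ 0 := by obtain ⟨_, _, _, h, _⟩ := h₂; exact h
  obtain ⟨r₁, b₁, hr₁, hb₁, e₁⟩ := mrp_red_change S.one₁ hh0 hc0 e h₁ h₁'
  obtain ⟨r₂, b₂, hr₂, hb₂, e₂⟩ := mrp_red_change S.one₂ hh0 hc0 e h₂ h₂'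
  exact ⟨mrp_class_eq hn hg₁ hr₁ hb₁ e₁ hΞ₁ hΞ₁', mrp_class_eq hn hg₂ hr₂ hb₂ e₂ hΞ₂ hΞ₂'⟩

/-- the orders of the reductions modulo `n` do not depend on the Kummer pair. -/
theorem mrp_ord_mod_aux (S : MrpSetup A V₁ V₂ red₁ red₂) {n : ℕ}
    {D D' : Divisor.degZero (K := K) (F := F)} {f f' : F} {g₁ g₁' : F₁} {g₂ g₂' : F₂}
    (hDD : Pic0.mk D = Pic0.mk D') (hf : f ≠ 0) (hf' : f' ≠ 0)
    (hD : ∀ v : Place K F, v.ord f = (n : ℤ) * (D : Divisor K F) v)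
    (hD' : ∀ v : Place K F, v.ord f' = (n : ℤ) * (D' : Divisor K F) v)
    (h₁ : MrpRedOf K V₁ red₁ f g₁) (h₂ : MrpRedOf K V₂ red₂ f g₂)
    (h₁' : MrpRedOf K V₁ red₁ f' g₁') (h₂' : MrpRedOf K V₂ red₂ f' g₂') :
    (∀ Q : Place (ResidueField A) F₁, (n : ℤ) ∣ Q.ord g₁' - Q.ord g₁) ∧
    (∀ Q : Place (ResidueField A) F₂, (n : ℤ) ∣ Q.ord g₂' - Q.ord g₂) := by
  obtain ⟨h, c, hh0, hc0, e⟩ := mrp_kummer_change S hDD hf hf' hD hD'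
  have hg₁ : g₁ ≠ 0 := by obtain ⟨_, _, _, h, _⟩ := h₁; exact h
  have hg₂ : g₂ ≠ 0 := by obtain ⟨_, _, _, h, _⟩ := h₂; exact h
  obtain ⟨r₁, b₁, hr₁, hb₁, e₁⟩ := mrp_red_change S.one₁ hh0 hc0 e h₁ h₁'
  obtain ⟨r₂, b₂, hr₂, hb₂, e₂⟩ := mrp_red_change S.one₂ hh0 hc0 e h₂ h₂'
  refine ⟨fun Q => ⟨Q.ord r₁, ?_⟩, fun Q => ⟨Q.ord r₂, ?_⟩⟩
  · rw [mrp_ord_change hg₁ hr₁ hb₁ e₁ Q]; ring
  · rw [mrp_ord_change hg₂ hr₂ hb₂ e₂ Q]; ring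

/-- **(K4)** `sp 0 = 0`. -/
theorem mrp_sp_zero (n : ℕ) : MrpSp A V₁ V₂ red₁ red₂ n 0 0 0 :=
  ⟨0, 1, 1, 1, 0, 0, Pic0.mk_zero, one_ne_zero, fun v => by simp, mrp_redOf_one, mrp_redOf_one,
    fun Q => by simp, fun Q => by simp, Pic0.mk_zero, Pic0.mk_zero⟩

/-- **(K4)** `sp` is additive. -/
theorem mrp_sp_add {n : ℕ} {x y : Pic0 K F} {ξ₁ η₁ : Pic0 (ResidueField A) F₁}
    {ξ₂ η₂ : Pic0 (ResidueField A) F₂} (h : MrpSp A V₁ V₂ red₁ red₂ n x ξ₁ ξ₂)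
    (h' : MrpSp A V₁ V₂ red₁ red₂ n y η₁ η₂) :
    MrpSp A V₁ V₂ red₁ red₂ n (x + y) (ξ₁ + η₁) (ξ₂ + η₂) := by
  obtain ⟨D, f, g₁, g₂, Ξ₁, Ξ₂, rfl, hf, hD, h₁, h₂, hΞ₁, hΞ₂, rfl, rfl⟩ := h
  obtain ⟨D', f', g₁', g₂', Ξ₁', Ξ₂', rfl, hf', hD', h₁', h₂', hΞ₁', hΞ₂', rfl, rfl⟩ := h'
  have hg₁ : g₁ ≠ 0 := by obtain ⟨_, _, _, h, _⟩ := h₁; exact h
  have hg₂ : g₂ ≠ 0 := by obtain ⟨_, _, _, h, _⟩ := h₂; exact h
  have hg₁' : g₁' ≠ 0 := by obtain ⟨_, _, _, h, _⟩ := h₁'; exact h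
  have hg₂' : g₂' ≠ 0 := by obtain ⟨_, _, _, h, _⟩ := h₂'; exact h
  refine ⟨D + D', f * f', g₁ * g₁', g₂ * g₂', Ξ₁ + Ξ₁', Ξ₂ + Ξ₂', Pic0.mk_add D D',
    mul_ne_zero hf hf', fun v => ?_, mrp_redOf_mul h₁ h₁', mrp_redOf_mul h₂ h₂', fun Q => ?_,
    fun Q => ?_, Pic0.mk_add _ _, Pic0.mk_add _ _⟩
  · rw [Place.ord_mul v hf hf', hD v, hD' v]
    simp only [AddSubgroup.coe_add, Finsupp.coe_add, Pi.add_apply]
    ring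
  · rw [Place.ord_mul Q hg₁ hg₁', hΞ₁ Q, hΞ₁' Q]
    simp only [AddSubgroup.coe_add, Finsupp.coe_add, Pi.add_apply]
    ring
  · rw [Place.ord_mul Q hg₂ hg₂', hΞ₂ Q, hΞ₂' Q]
    simp only [AddSubgroup.coe_add, Finsupp.coe_add, Pi.add_apply]
    ring

/-- **(K4)** `sp (-x) = - sp x`. -/
theorem mrp_sp_neg (S : MrpSetup A V₁ V₂ red₁ red₂) {n : ℕ} {x : Pic0 K F}
    {ξ₁ : Pic0 (ResidueField A) F₁} {ξ₂ : Pic0 (ResidueField A) F₂}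
    (h : MrpSp A V₁ V₂ red₁ red₂ n x ξ₁ ξ₂) :
    MrpSp A V₁ V₂ red₁ red₂ n (-x) (-ξ₁) (-ξ₂) := by
  obtain ⟨D, f, g₁, g₂, Ξ₁, Ξ₂, rfl, hf, hD, h₁, h₂, hΞ₁, hΞ₂, rfl, rfl⟩ := h
  refine ⟨-D, f⁻¹, g₁⁻¹, g₂⁻¹, -Ξ₁, -Ξ₂, rfl, inv_ne_zero hf, fun v => ?_,
    mrp_redOf_inv S.one₁ h₁, mrp_redOf_inv S.one₂ h₂, fun Q => ?_, fun Q => ?_, rfl, rfl⟩
  · rw [Place.ord_inv, hD v]
    simp only [AddSubgroup.coe_neg, Finsupp.coe_neg, Pi.neg_apply]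
    ring
  · rw [Place.ord_inv, hΞ₁ Q]
    simp only [AddSubgroup.coe_neg, Finsupp.coe_neg, Pi.neg_apply]
    ring
  · rw [Place.ord_inv, hΞ₂ Q]
    simp only [AddSubgroup.coe_neg, Finsupp.coe_neg, Pi.neg_apply]
    ring

/-- **(K4)** `sp` lives on the `n`-torsion, with values in the `n`-torsion. -/
theorem mrp_sp_torsion {n : ℕ} {x : Pic0 K F}
    {ξ₁ : Pic0 (ResidueField A) F₁} {ξ₂ : Pic0 (ResidueField A) F₂}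
    (h : MrpSp A V₁ V₂ red₁ red₂ n x ξ₁ ξ₂) :
    (n : ℤ) • x = 0 ∧ (n : ℤ) • ξ₁ = 0 ∧ (n : ℤ) • ξ₂ = 0 := by
  obtain ⟨D, f, g₁, g₂, Ξ₁, Ξ₂, rfl, hf, hD, h₁, h₂, hΞ₁, hΞ₂, rfl, rfl⟩ := h
  have hg₁ : g₁ ≠ 0 := by obtain ⟨_, _, _, h, _⟩ := h₁; exact h
  have hg₂ : g₂ ≠ 0 := by obtain ⟨_, _, _, h, _⟩ := h₂; exact h
  exact ⟨mrp_zsmul_mk_eq_zero hf hD, mrp_zsmul_mk_eq_zero hg₁ hΞ₁, mrp_zsmul_mk_eq_zero hg₂ hΞ₂⟩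

/-- a function whose divisor is `n` times a principal divisor is a constant times an `n`-th
power. -/
theorem mrp_pow_of_class_zero {k : Type*} [Field k] {F' : Type*} [Field F'] [Algebra k F']
    (hcst : ∀ g : F', g ≠ 0 → (∀ Q : Place k F', Q.ord g = 0) → ∃ a : k, g = algebraMap k F' a)
    {n : ℕ} {g : F'} (hg : g ≠ 0) {Ξ : Divisor.degZero (K := k) (F := F')}
    (hΞ : ∀ Q : Place k F', Q.ord g = (n : ℤ) * (Ξ : Divisor k F') Q) (h0 : Pic0.mk Ξ = 0) :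
    ∃ (a : k) (γ : F'), g = algebraMap k F' a * γ ^ n := by
  obtain ⟨γ, hγ0, hγ⟩ := mrp_mk_eq_zero_iff.1 h0
  have hq0 : g * (γ ^ n)⁻¹ ≠ 0 := mul_ne_zero hg (inv_ne_zero (pow_ne_zero n hγ0))
  obtain ⟨a, ha⟩ := hcst _ hq0 (fun Q => by
    rw [Place.ord_mul Q hg (inv_ne_zero (pow_ne_zero n hγ0)), Place.ord_inv, mrp_ord_pow, hΞ Q,
      hγ Q]
    ring)
  refine ⟨a, γ, ?_⟩
  rw [← ha]
  field_simp

/-- **(K4)** `ker sp = Γ₀`. -/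
theorem mrp_spKer_aux [HasPrincipalDivisors K F] (S : MrpSetup A V₁ V₂ red₁ red₂) {n : ℕ}
    (hn : n ≠ 0) (hk : ∀ a : ResidueField A, ∃ b : ResidueField A, b ^ n = a) (x : Pic0 K F) :
    MrpSp A V₁ V₂ red₁ red₂ n x 0 0 ↔ x ∈ ttalKum (K := K) (ttalOne V₁ V₂) n := by
  constructor
  · rintro ⟨D, f, g₁, g₂, Ξ₁, Ξ₂, rfl, hf, hD, h₁, h₂, hΞ₁, hΞ₂, hξ₁, hξ₂⟩
    have hg₁ : g₁ ≠ 0 := by obtain ⟨_, _, _, h, _⟩ := h₁; exact h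
    have hg₂ : g₂ ≠ 0 := by obtain ⟨_, _, _, h, _⟩ := h₂; exact h
    obtain ⟨a₁, γ₁, e₁⟩ := mrp_pow_of_class_zero S.cst₁ hg₁ hΞ₁ hξ₁
    obtain ⟨a₂, γ₂, e₂⟩ := mrp_pow_of_class_zero S.cst₂ hg₂ hΞ₂ hξ₂
    exact mrp_ker_aux S hn hk hD h₁ h₂ e₁ e₂
  · rintro ⟨D, rfl, u, ⟨hu₁, hu₂⟩, hD⟩
    exact ⟨D, (u : F), 1, 1, 0, 0, rfl, u.ne_zero, hD, mrp_redOf_one_unit S.one₁ hu₁,
      mrp_redOf_one_unit S.one₂ hu₂, fun Q => by simp, fun Q => by simp, Pic0.mk_zero,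
      Pic0.mk_zero⟩

end Two

/-- **(K4)** existence. -/
theorem mrp_spExists : MrpSpExistsSpec := by
  intro K _ A F _ _ F₁ F₂ _ _ _ _ _ _ V₁ V₂ red₁ red₂ S n hn D f g₁ g₂ hf hD h₁ h₂ hd₁ hd₂
  exact mrp_spExists_aux hn hf hD h₁ h₂ hd₁ hd₂

/-- **(K4)** `sp` is well defined. -/
theorem mrp_spUnique : MrpSpUniqueSpec := by
  intro K _ A F _ _ F₁ F₂ _ _ _ _ V₁ V₂ red₁ red₂ S n hn
  exact ⟨fun x ξ₁ η₁ ξ₂ η₂ h h' => mrp_spUnique_aux S hn h h',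
    fun D D' f f' g₁ g₁' g₂ g₂' hDD hf hf' hD hD' h₁ h₂ h₁' h₂' =>
      mrp_ord_mod_aux S hDD hf hf' hD hD' h₁ h₂ h₁' h₂'⟩

/-- **(K4)** `sp` is additive. -/
theorem mrp_spAdd : MrpSpAddSpec := by
  intro K _ A F _ _ F₁ F₂ _ _ _ _ V₁ V₂ red₁ red₂ S n hn
  exact ⟨mrp_sp_zero n, fun x y ξ₁ η₁ ξ₂ η₂ h h' => mrp_sp_add h h',
    fun x ξ₁ ξ₂ h => mrp_sp_neg S h, fun x ξ₁ ξ₂ h => mrp_sp_torsion h⟩

/-- **(K4)** `ker sp = Γ₀`. -/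
theorem mrp_spKer : MrpSpKerSpec := by
  intro K _ A F _ _ _ F₁ F₂ _ _ _ _ V₁ V₂ red₁ red₂ S n hn hk x
  exact mrp_spKer_aux S hn hk x

/-- **(K5-sp)** Hecke-equivariance, abstract form. -/
theorem mrp_spHecke : MrpSpHeckeSpec := by
  intro K _ A F _ _ F₁ F₂ _ _ _ _ V₁ V₂ red₁ red₂ n TD T Tf TD₁ T₁ Tf₁ TD₂ T₂ Tf₂ hT hT₁ hT₂ hTf0
    hTf hTf₁ hTf₂ hr₁ hr₂ x ξ₁ ξ₂ h
  obtain ⟨D, f, g₁, g₂, Ξ₁, Ξ₂, rfl, hf, hD, h₁, h₂, hΞ₁, hΞ₂, rfl, rfl⟩ := h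
  have hg₁ : g₁ ≠ 0 := by obtain ⟨_, _, _, h, _⟩ := h₁; exact h
  have hg₂ : g₂ ≠ 0 := by obtain ⟨_, _, _, h, _⟩ := h₂; exact h
  exact ⟨TD D, Tf f, Tf₁ g₁, Tf₂ g₂, TD₁ Ξ₁, TD₂ Ξ₂, (hT D).symm, hTf0 f hf, hTf f D hf hD,
    hr₁ f g₁ h₁, hr₂ f g₂ h₂, hTf₁ g₁ Ξ₁ hg₁ hΞ₁, hTf₂ g₂ Ξ₂ hg₂ hΞ₂, (hT₁ Ξ₁).symm, (hT₂ Ξ₂).symm⟩

/-- **the setup holds for the landed abstract TT model.** -/
theorem mrp_setupOfModel : MrpSetupOfModelSpec := by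
  intro p hp 𝔸 h𝔸 F _ _ F₁ F₂ _ _ _ _ V₁ V₂ red₁ red₂ ρ cls S _ ν₁ ν₂ T₁ T₂ g g₁ g₂ M hsurj hc₁ hc₂
    hc
  exact
    { idem := M.idem
      ker₁ := M.ker₁
      ker₂ := M.ker₂
      sc₁ := M.sc₁
      sc₂ := M.sc₂
      const₁ := fun a => congrArg Prod.fst (M.toRed.red_const a)
      const₂ := fun a => congrArg Prod.snd (M.toRed.red_const a)
      surj := hsurj
      root := ttal_hroot_qbar
      rk := ttal_hrk_qbar 𝔸 hp h𝔸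
      cst₁ := hc₁
      cst₂ := hc₂
      cst := hc }

end Fermat.Agent.MR
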