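import Fermat.Agent.TT.Geom.Spec
import Fermat.Agent.TT.Alpha.Kummer
import Fermat.Agent.TT.Alpha.Norm

/-!
# PROGRAM MR (S44), block `mrp` : THE SPECIALISATION `sp` BY THE KUMMER FUNCTION — interface file

Owner: helper1 (MR-PM R61/R62; second: helper3).  Namespace `Fermat.Agent.MR`, prefix `mrp`.

Setting (abstract, as in `TT/Alpha`): `A ⊂ K` a valuation ring with residue field `k`, `F / K` a
function field, `V₁ V₂` the two Gauss valuation rings with reductions `red_i : V_i → F_i`.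

* `MrpRedOf V red f g` : **(K1)** `g` is A reduction of `f` : `g = red (c f) ≠ 0` for a constant `c`;
* `MrpSetup A V₁ V₂ red₁ red₂` : the ring-level inputs (all available for the landed TT model:
  `TtgModel` fields `idem ker₁ ker₂ sc₁ sc₂ toRed`, `ttal_hroot_qbar`, `ttal_hrk_qbar`,
  `ttre_inst_surjective`);
* `MrpSp A V₁ V₂ red₁ red₂ n x ξ₁ ξ₂` : **(K4)** `sp x = (ξ₁, ξ₂)` : for SOME Kummer pair `(D, f)` of
  `x` (`n D = div f`) and SOME reductions `g_i` of `f`, `div g_i = n Ξ_i` and `ξ_i = [Ξ_i]`;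
* the leaf statements `Mrp…Spec : Prop` : (K2) kernel, (K4) existence on `ker μ`, uniqueness,
  additivity, torsion, `ker sp = Γ₀ = ttalKum (ttalOne V₁ V₂) n`, (K5-sp) Hecke-equivariance.
-/

set_option autoImplicit false
set_option linter.unusedSectionVars false
set_option linter.unusedVariables false

noncomputable section

namespace Fermat.Agent.MR

open AlgebraicCurve IsLocalRing Fermat.Agent.TT

section Defs

variable {K : Type*} [Field K] (A : ValuationSubring K) {F : Type*} [Field F] [Algebra K F]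
variable {F₁ F₂ : Type*} [Field F₁] [Field F₂] [Algebra (ResidueField A) F₁]
  [Algebra (ResidueField A) F₂]

/-- **(K1)** `g` is a reduction of `f` at `(V, red)` : `g = red (c f)`, `g ≠ 0`, for a constant
`c ∈ Kˣ` (then `c f` is a unit of `V`); `g` is determined by `f` up to `kˣ`. -/
def MrpRedOf (K : Type*) [Field K] {F : Type*} [Field F] [Algebra K F] (V : ValuationSubring F)
    {F' : Type*} [Field F'] (red : V →+* F') (f : F) (g : F') : Prop :=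
  ∃ (c : K) (h : algebraMap K F c * f ∈ V), c ≠ 0 ∧ g ≠ 0 ∧ red ⟨algebraMap K F c * f, h⟩ = g

/-- the ring-level inputs of the block (all provided by the landed TT model). -/
structure MrpSetup (V₁ V₂ : ValuationSubring F) (red₁ : V₁ →+* F₁) (red₂ : V₂ →+* F₂) : Prop where
  /-- constants, maximal ideals, the two idempotents (`TtgModel.idem`). -/
  idem : TtalIdem A V₁ V₂
  /-- `ker red₁ = 𝔪_{V₁}` (`TtgModel.ker₁`). -/
  ker₁ : ∀ x : V₁, red₁ x = 0 ↔ (x : F) ∈ V₁.nonunits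
  /-- `ker red₂ = 𝔪_{V₂}` (`TtgModel.ker₂`). -/
  ker₂ : ∀ x : V₂, red₂ x = 0 ↔ (x : F) ∈ V₂.nonunits
  /-- `e = 1` at `V₁` (`TtgModel.sc₁`). -/
  sc₁ : ∀ f : F, f ≠ 0 → ∃ c : K, c ≠ 0 ∧ TtalIsU V₁ (algebraMap K F c * f)
  /-- `e = 1` at `V₂` (`TtgModel.sc₂`). -/
  sc₂ : ∀ f : F, f ≠ 0 → ∃ c : K, c ≠ 0 ∧ TtalIsU V₂ (algebraMap K F c * f)
  /-- the reduction of a constant, first component (`TtgModel.toRed.red_const`). -/
  const₁ : ∀ a : A, red₁ ⟨algebraMap K F (a : K), idem.const₁ _ a.2⟩ =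
    algebraMap (ResidueField A) F₁ (residue A a)
  /-- the reduction of a constant, second component. -/
  const₂ : ∀ a : A, red₂ ⟨algebraMap K F (a : K), idem.const₂ _ a.2⟩ =
    algebraMap (ResidueField A) F₂ (residue A a)
  /-- `red = (red₁, red₂) : V₁ ∩ V₂ → F₁ × F₂` is ONTO (`ttre_inst_surjective`). -/
  surj : Function.Surjective (ttgRed red₁ red₂)
  /-- roots of constants (`ttal_hroot_qbar`). -/
  root : ∀ (a : K) (m : ℕ), a ≠ 0 → m ≠ 0 → ∃ a' : K, a' ^ m = a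
  /-- rank one (`ttal_hrk_qbar`). -/
  rk : ∀ (c π₁ π₂ : K), c ≠ 0 → π₁ ≠ 0 → π₂ ≠ 0 → π₁ ∈ A.nonunits → π₂ ∈ A.nonunits →
    ∃ (m : ℕ) (d : K), m ≠ 0 ∧ d ^ m = c ∧ d * π₁ ∈ A.nonunits ∧ d⁻¹ * π₂ ∈ A.nonunits
  /-- a function on the first component without zeros and poles is a constant. -/
  cst₁ : ∀ g : F₁, g ≠ 0 → (∀ Q : Place (ResidueField A) F₁, Q.ord g = 0) →
    ∃ a : ResidueField A, g = algebraMap (ResidueField A) F₁ a
  /-- a function on the second component without zeros and poles is a constant. -/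
  cst₂ : ∀ g : F₂, g ≠ 0 → (∀ Q : Place (ResidueField A) F₂, Q.ord g = 0) →
    ∃ a : ResidueField A, g = algebraMap (ResidueField A) F₂ a
  /-- a function of `F` without zeros and poles is a constant. -/
  cst : ∀ f : F, f ≠ 0 → (∀ v : Place K F, v.ord f = 0) → ∃ c : K, f = algebraMap K F c

/-- **(K4)** `sp x = (ξ₁, ξ₂)` : there are a Kummer pair `(D, f)` of `x` (`n D = div f`) and
reductions `g_i` of `f` with `div g_i = n Ξ_i`, `ξ_i = [Ξ_i]`. -/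
def MrpSp (V₁ V₂ : ValuationSubring F) (red₁ : V₁ →+* F₁) (red₂ : V₂ →+* F₂) (n : ℕ)
    (x : Pic0 K F) (ξ₁ : Pic0 (ResidueField A) F₁) (ξ₂ : Pic0 (ResidueField A) F₂) : Prop :=
  ∃ (D : Divisor.degZero (K := K) (F := F)) (f : F) (g₁ : F₁) (g₂ : F₂)
    (Ξ₁ : Divisor.degZero (K := ResidueField A) (F := F₁))
    (Ξ₂ : Divisor.degZero (K := ResidueField A) (F := F₂)),
    Pic0.mk D = x ∧ f ≠ 0 ∧ (∀ v : Place K F, v.ord f = (n : ℤ) * (D : Divisor K F) v) ∧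
    MrpRedOf K V₁ red₁ f g₁ ∧ MrpRedOf K V₂ red₂ f g₂ ∧
    (∀ Q : Place (ResidueField A) F₁, Q.ord g₁ = (n : ℤ) * (Ξ₁ : Divisor (ResidueField A) F₁) Q) ∧
    (∀ Q : Place (ResidueField A) F₂, Q.ord g₂ = (n : ℤ) * (Ξ₂ : Divisor (ResidueField A) F₂) Q) ∧
    Pic0.mk Ξ₁ = ξ₁ ∧ Pic0.mk Ξ₂ = ξ₂

end Defs

/-! ## The leaf statements -/

/-- **(K1)** existence, and uniqueness up to `kˣ`, of the reduction of a function. -/
def MrpRedOfSpec : Prop :=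
  ∀ (K : Type) [Field K] (A : ValuationSubring K) (F : Type) [Field F] [Algebra K F]
    (F₁ F₂ : Type) [Field F₁] [Field F₂] [Algebra (ResidueField A) F₁]
    [Algebra (ResidueField A) F₂] (V₁ V₂ : ValuationSubring F) (red₁ : V₁ →+* F₁)
    (red₂ : V₂ →+* F₂), MrpSetup A V₁ V₂ red₁ red₂ →
    (∀ f : F, f ≠ 0 → (∃ g₁, MrpRedOf K V₁ red₁ f g₁) ∧ ∃ g₂, MrpRedOf K V₂ red₂ f g₂) ∧
    (∀ (f : F) (g g' : F₁), MrpRedOf K V₁ red₁ f g → MrpRedOf K V₁ red₁ f g' →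
      ∃ a : ResidueField A, a ≠ 0 ∧ g' = algebraMap (ResidueField A) F₁ a * g) ∧
    (∀ (f : F) (g g' : F₂), MrpRedOf K V₂ red₂ f g → MrpRedOf K V₂ red₂ f g' →
      ∃ a : ResidueField A, a ≠ 0 ∧ g' = algebraMap (ResidueField A) F₂ a * g) ∧
    (∀ (f f' : F) (g g' : F₁), MrpRedOf K V₁ red₁ f g → MrpRedOf K V₁ red₁ f' g' →
      MrpRedOf K V₁ red₁ (f * f') (g * g')) ∧
    (∀ (f f' : F) (g g' : F₂), MrpRedOf K V₂ red₂ f g → MrpRedOf K V₂ red₂ f' g' →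
      MrpRedOf K V₂ red₂ (f * f') (g * g'))

/-- **(K2) KERNEL, function form** : if the reductions of `f` are `n`-th powers up to constants on
BOTH components, then `c f Gⁿ` is a one-unit of `V₁` and of `V₂` for some `G ∈ Fˣ`, `c ∈ Kˣ`. -/
def MrpKerFunSpec : Prop :=
  ∀ (K : Type) [Field K] (A : ValuationSubring K) (F : Type) [Field F] [Algebra K F]
    (F₁ F₂ : Type) [Field F₁] [Field F₂] [Algebra (ResidueField A) F₁]
    [Algebra (ResidueField A) F₂] (V₁ V₂ : ValuationSubring F) (red₁ : V₁ →+* F₁)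
    (red₂ : V₂ →+* F₂), MrpSetup A V₁ V₂ red₁ red₂ →
    ∀ (n : ℕ), n ≠ 0 → (∀ a : ResidueField A, ∃ b : ResidueField A, b ^ n = a) →
    ∀ (f : F) (g₁ γ₁ : F₁) (g₂ γ₂ : F₂) (a₁ a₂ : ResidueField A),
      MrpRedOf K V₁ red₁ f g₁ → MrpRedOf K V₂ red₂ f g₂ →
      g₁ = algebraMap (ResidueField A) F₁ a₁ * γ₁ ^ n →
      g₂ = algebraMap (ResidueField A) F₂ a₂ * γ₂ ^ n →
      ∃ (G : F) (c : K), G ≠ 0 ∧ c ≠ 0 ∧
        algebraMap K F c * f * G ^ n - 1 ∈ V₁.nonunits ∧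
        algebraMap K F c * f * G ^ n - 1 ∈ V₂.nonunits

/-- **(K2) KERNEL, class form** : a class `x = [D]`, `n D = div f`, whose Kummer function has
`n`-th-power reductions (up to constants) on both components lies in the LANDED
`Γ₀ = ttalKum (ttalOne V₁ V₂) n`. -/
def MrpKerSpec : Prop :=
  ∀ (K : Type) [Field K] (A : ValuationSubring K) (F : Type) [Field F] [Algebra K F]
    [HasPrincipalDivisors K F]
    (F₁ F₂ : Type) [Field F₁] [Field F₂] [Algebra (ResidueField A) F₁]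
    [Algebra (ResidueField A) F₂] (V₁ V₂ : ValuationSubring F) (red₁ : V₁ →+* F₁)
    (red₂ : V₂ →+* F₂), MrpSetup A V₁ V₂ red₁ red₂ →
    ∀ (n : ℕ), n ≠ 0 → (∀ a : ResidueField A, ∃ b : ResidueField A, b ^ n = a) →
    ∀ (D : Divisor.degZero (K := K) (F := F)) (f : F) (g₁ γ₁ : F₁) (g₂ γ₂ : F₂)
      (a₁ a₂ : ResidueField A),
      (∀ v : Place K F, v.ord f = (n : ℤ) * (D : Divisor K F) v) →
      MrpRedOf K V₁ red₁ f g₁ → MrpRedOf K V₂ red₂ f g₂ →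
      g₁ = algebraMap (ResidueField A) F₁ a₁ * γ₁ ^ n →
      g₂ = algebraMap (ResidueField A) F₂ a₂ * γ₂ ^ n →
      Pic0.mk D ∈ ttalKum (K := K) (ttalOne V₁ V₂) n

/-- **(K4) EXISTENCE of `sp` on `ker μ`** : if `n x = 0` and the reductions `g_i` of ONE Kummer
function of `x` have all orders divisible by `n` (`= μ(x) = 0` together with (K3)), then `sp x` is
defined. -/
def MrpSpExistsSpec : Prop :=
  ∀ (K : Type) [Field K] (A : ValuationSubring K) (F : Type) [Field F] [Algebra K F]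
    (F₁ F₂ : Type) [Field F₁] [Field F₂] [Algebra (ResidueField A) F₁]
    [Algebra (ResidueField A) F₂] [HasPrincipalDivisors (ResidueField A) F₁]
    [HasPrincipalDivisors (ResidueField A) F₂]
    (V₁ V₂ : ValuationSubring F) (red₁ : V₁ →+* F₁)
    (red₂ : V₂ →+* F₂), MrpSetup A V₁ V₂ red₁ red₂ →
    ∀ (n : ℕ), n ≠ 0 →
    ∀ (D : Divisor.degZero (K := K) (F := F)) (f : F) (g₁ : F₁) (g₂ : F₂), f ≠ 0 →
      (∀ v : Place K F, v.ord f = (n : ℤ) * (D : Divisor K F) v) →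
      MrpRedOf K V₁ red₁ f g₁ → MrpRedOf K V₂ red₂ f g₂ →
      (∀ Q : Place (ResidueField A) F₁, (n : ℤ) ∣ Q.ord g₁) →
      (∀ Q : Place (ResidueField A) F₂, (n : ℤ) ∣ Q.ord g₂) →
      ∃ ξ₁ ξ₂, MrpSp A V₁ V₂ red₁ red₂ n (Pic0.mk D) ξ₁ ξ₂

/-- **(K4) `sp` IS WELL DEFINED** (independent of the Kummer pair and of the reductions), and the
divisibility hypothesis of `MrpSpExistsSpec` does not depend on the pair either. -/
def MrpSpUniqueSpec : Prop :=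
  ∀ (K : Type) [Field K] (A : ValuationSubring K) (F : Type) [Field F] [Algebra K F]
    (F₁ F₂ : Type) [Field F₁] [Field F₂] [Algebra (ResidueField A) F₁]
    [Algebra (ResidueField A) F₂] (V₁ V₂ : ValuationSubring F) (red₁ : V₁ →+* F₁)
    (red₂ : V₂ →+* F₂), MrpSetup A V₁ V₂ red₁ red₂ →
    ∀ (n : ℕ), n ≠ 0 →
    (∀ (x : Pic0 K F) (ξ₁ η₁ : Pic0 (ResidueField A) F₁) (ξ₂ η₂ : Pic0 (ResidueField A) F₂),
      MrpSp A V₁ V₂ red₁ red₂ n x ξ₁ ξ₂ → MrpSp A V₁ V₂ red₁ red₂ n x η₁ η₂ →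
        ξ₁ = η₁ ∧ ξ₂ = η₂) ∧
    (∀ (D D' : Divisor.degZero (K := K) (F := F)) (f f' : F) (g₁ g₁' : F₁) (g₂ g₂' : F₂),
      Pic0.mk D = Pic0.mk D' → f ≠ 0 → f' ≠ 0 →
      (∀ v : Place K F, v.ord f = (n : ℤ) * (D : Divisor K F) v) →
      (∀ v : Place K F, v.ord f' = (n : ℤ) * (D' : Divisor K F) v) →
      MrpRedOf K V₁ red₁ f g₁ → MrpRedOf K V₂ red₂ f g₂ →
      MrpRedOf K V₁ red₁ f' g₁' → MrpRedOf K V₂ red₂ f' g₂' →
      (∀ Q : Place (ResidueField A) F₁, (n : ℤ) ∣ Q.ord g₁' - Q.ord g₁) ∧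
      (∀ Q : Place (ResidueField A) F₂, (n : ℤ) ∣ Q.ord g₂' - Q.ord g₂))

/-- **(K4) `sp` IS ADDITIVE** and its values are killed by `n`. -/
def MrpSpAddSpec : Prop :=
  ∀ (K : Type) [Field K] (A : ValuationSubring K) (F : Type) [Field F] [Algebra K F]
    (F₁ F₂ : Type) [Field F₁] [Field F₂] [Algebra (ResidueField A) F₁]
    [Algebra (ResidueField A) F₂] (V₁ V₂ : ValuationSubring F) (red₁ : V₁ →+* F₁)
    (red₂ : V₂ →+* F₂), MrpSetup A V₁ V₂ red₁ red₂ →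
    ∀ (n : ℕ), n ≠ 0 →
    MrpSp A V₁ V₂ red₁ red₂ n 0 0 0 ∧
    (∀ (x y : Pic0 K F) (ξ₁ η₁ : Pic0 (ResidueField A) F₁) (ξ₂ η₂ : Pic0 (ResidueField A) F₂),
      MrpSp A V₁ V₂ red₁ red₂ n x ξ₁ ξ₂ → MrpSp A V₁ V₂ red₁ red₂ n y η₁ η₂ →
        MrpSp A V₁ V₂ red₁ red₂ n (x + y) (ξ₁ + η₁) (ξ₂ + η₂)) ∧
    (∀ (x : Pic0 K F) (ξ₁ : Pic0 (ResidueField A) F₁) (ξ₂ : Pic0 (ResidueField A) F₂),
      MrpSp A V₁ V₂ red₁ red₂ n x ξ₁ ξ₂ → MrpSp A V₁ V₂ red₁ red₂ n (-x) (-ξ₁) (-ξ₂)) ∧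
    (∀ (x : Pic0 K F) (ξ₁ : Pic0 (ResidueField A) F₁) (ξ₂ : Pic0 (ResidueField A) F₂),
      MrpSp A V₁ V₂ red₁ red₂ n x ξ₁ ξ₂ →
        (n : ℤ) • x = 0 ∧ (n : ℤ) • ξ₁ = 0 ∧ (n : ℤ) • ξ₂ = 0)

/-- **(K4) `ker sp = Γ₀` EXACTLY** : `sp x = (0, 0)` iff `x` lies in the landed Kummer subgroup
`ttalKum (ttalOne V₁ V₂) n`. -/
def MrpSpKerSpec : Prop :=
  ∀ (K : Type) [Field K] (A : ValuationSubring K) (F : Type) [Field F] [Algebra K F]
    [HasPrincipalDivisors K F]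
    (F₁ F₂ : Type) [Field F₁] [Field F₂] [Algebra (ResidueField A) F₁]
    [Algebra (ResidueField A) F₂] (V₁ V₂ : ValuationSubring F) (red₁ : V₁ →+* F₁)
    (red₂ : V₂ →+* F₂), MrpSetup A V₁ V₂ red₁ red₂ →
    ∀ (n : ℕ), n ≠ 0 → (∀ a : ResidueField A, ∃ b : ResidueField A, b ^ n = a) →
    ∀ x : Pic0 K F, MrpSp A V₁ V₂ red₁ red₂ n x 0 0 ↔ x ∈ ttalKum (K := K) (ttalOne V₁ V₂) n

/-- **(K5-sp) HECKE-EQUIVARIANCE, abstract form** : let `T` be an endomorphism of `Pic⁰(F)` induced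
by `TD` on divisors, with a map `Tf` on functions (`f ↦ N_α(β f)`) such that `div (Tf f) = TD (div
f)`, and the same on both components; if `Tf` is compatible with the reductions up to constants
(block `mrh`: `red(N_α(β f)) = N_{α_k}(β_k red f)`), then `sp (T x) = (T₁ ξ₁, T₂ ξ₂)`. -/
def MrpSpHeckeSpec : Prop :=
  ∀ (K : Type) [Field K] (A : ValuationSubring K) (F : Type) [Field F] [Algebra K F]
    (F₁ F₂ : Type) [Field F₁] [Field F₂] [Algebra (ResidueField A) F₁]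
    [Algebra (ResidueField A) F₂] (V₁ V₂ : ValuationSubring F) (red₁ : V₁ →+* F₁)
    (red₂ : V₂ →+* F₂) (n : ℕ)
    (TD : Divisor.degZero (K := K) (F := F) →+ Divisor.degZero (K := K) (F := F))
    (T : Pic0 K F →+ Pic0 K F) (Tf : F → F)
    (TD₁ : Divisor.degZero (K := ResidueField A) (F := F₁) →+
      Divisor.degZero (K := ResidueField A) (F := F₁))
    (T₁ : Pic0 (ResidueField A) F₁ →+ Pic0 (ResidueField A) F₁) (Tf₁ : F₁ → F₁)
    (TD₂ : Divisor.degZero (K := ResidueField A) (F := F₂) →+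
      Divisor.degZero (K := ResidueField A) (F := F₂))
    (T₂ : Pic0 (ResidueField A) F₂ →+ Pic0 (ResidueField A) F₂) (Tf₂ : F₂ → F₂),
    (∀ D, T (Pic0.mk D) = Pic0.mk (TD D)) → (∀ Ξ, T₁ (Pic0.mk Ξ) = Pic0.mk (TD₁ Ξ)) →
    (∀ Ξ, T₂ (Pic0.mk Ξ) = Pic0.mk (TD₂ Ξ)) →
    (∀ f : F, f ≠ 0 → Tf f ≠ 0) →
    (∀ (f : F) (D : Divisor.degZero (K := K) (F := F)), f ≠ 0 →
      (∀ v : Place K F, v.ord f = (n : ℤ) * (D : Divisor K F) v) →
      ∀ v : Place K F, v.ord (Tf f) = (n : ℤ) * (TD D : Divisor K F) v) →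
    (∀ (g : F₁) (Ξ : Divisor.degZero (K := ResidueField A) (F := F₁)), g ≠ 0 →
      (∀ Q : Place (ResidueField A) F₁, Q.ord g = (n : ℤ) * (Ξ : Divisor (ResidueField A) F₁) Q) →
      ∀ Q : Place (ResidueField A) F₁,
        Q.ord (Tf₁ g) = (n : ℤ) * (TD₁ Ξ : Divisor (ResidueField A) F₁) Q) →
    (∀ (g : F₂) (Ξ : Divisor.degZero (K := ResidueField A) (F := F₂)), g ≠ 0 →
      (∀ Q : Place (ResidueField A) F₂, Q.ord g = (n : ℤ) * (Ξ : Divisor (ResidueField A) F₂) Q) →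
      ∀ Q : Place (ResidueField A) F₂,
        Q.ord (Tf₂ g) = (n : ℤ) * (TD₂ Ξ : Divisor (ResidueField A) F₂) Q) →
    (∀ (f : F) (g : F₁), MrpRedOf K V₁ red₁ f g → MrpRedOf K V₁ red₁ (Tf f) (Tf₁ g)) →
    (∀ (f : F) (g : F₂), MrpRedOf K V₂ red₂ f g → MrpRedOf K V₂ red₂ (Tf f) (Tf₂ g)) →
    ∀ (x : Pic0 K F) (ξ₁ : Pic0 (ResidueField A) F₁) (ξ₂ : Pic0 (ResidueField A) F₂),
      MrpSp A V₁ V₂ red₁ red₂ n x ξ₁ ξ₂ → MrpSp A V₁ V₂ red₁ red₂ n (T x) (T₁ ξ₁) (T₂ ξ₂)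

/-- **the setup holds for the landed abstract TT model** (given the three facts that are not
fields of `TtgModel` : `red` onto, constants on the components and on `F`). -/
def MrpSetupOfModelSpec : Prop :=
  ∀ (p : ℕ), p.Prime → ∀ (𝔸 : ValuationSubring Fermat.Agent.FF.FfQb), 𝔸.LiesOverPrime p →
  ∀ (F : Type) [Field F] [Algebra Fermat.Agent.FF.FfQb F] (F₁ F₂ : Type) [Field F₁] [Field F₂]
    [Algebra (ResidueField 𝔸) F₁] [Algebra (ResidueField 𝔸) F₂]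
    (V₁ V₂ : ValuationSubring F) (red₁ : V₁ →+* F₁) (red₂ : V₂ →+* F₂)
    (ρ : ↥(Fermat.Agent.FF.ffI 𝔸) →* SemilinearAut Fermat.Agent.FF.FfQb F)
    (cls : Place Fermat.Agent.FF.FfQb F →
      Option (Place (ResidueField 𝔸) F₁ ⊕ Place (ResidueField 𝔸) F₂))
    (S : Type) [Fintype S] (ν₁ : S → Place (ResidueField 𝔸) F₁)
    (ν₂ : S → Place (ResidueField 𝔸) F₂) (T₁ : Finset (Place (ResidueField 𝔸) F₁))
    (T₂ : Finset (Place (ResidueField 𝔸) F₂)) (g g₁ g₂ : ℕ),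
    TtgModel 𝔸 V₁ V₂ red₁ red₂ ρ cls ν₁ ν₂ T₁ T₂ g g₁ g₂ →
    Function.Surjective (ttgRed red₁ red₂) →
    (∀ g : F₁, g ≠ 0 → (∀ Q : Place (ResidueField 𝔸) F₁, Q.ord g = 0) →
      ∃ a : ResidueField 𝔸, g = algebraMap (ResidueField 𝔸) F₁ a) →
    (∀ g : F₂, g ≠ 0 → (∀ Q : Place (ResidueField 𝔸) F₂, Q.ord g = 0) →
      ∃ a : ResidueField 𝔸, g = algebraMap (ResidueField 𝔸) F₂ a) →
    (∀ f : F, f ≠ 0 → (∀ v : Place Fermat.Agent.FF.FfQb F, v.ord f = 0) →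
      ∃ c : Fermat.Agent.FF.FfQb, f = algebraMap Fermat.Agent.FF.FfQb F c) →
    MrpSetup 𝔸 V₁ V₂ red₁ red₂

end Fermat.Agent.MR
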